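import Mathlib
import Fermat.Agent.LT.T5.Spec

/-!
# Row LT, tower T5, leaf T5.02 `LeafHS0`: CUT (helper873, sub-architect of the leaf)

OFF-MAIN.  Vocabulary: `Fermat/Agent/LT/T5/Spec.lean` v3 (helper32, sha256 d6f8b00ae5f14ad1),
byte-identical copy.  Definitions of four sub-leaf Props and the PROVED top
`leafHS0_of_cut873 : SupBoundC 𝔫 τ → KerRepC 𝔫 τ → KerAutC 𝔫 τ → KerMeasC 𝔫 τ → LeafHS0 𝔫 τ`.

## The route (Gelfand--Piatetski-Shapiro: sup bound ⟹ Hilbert--Schmidt; Godement, Boulder, §3)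

Fix `x`.  The function `e_x(y) = conj K_φ(x, y)` is a bounded continuous automorphic function of
type `τ` (`KerAutC`), and `R(φ) e_x (x) = ∫_F K_φ(x,y) e_x(y) dy = ∫_F |K_φ(x,y)|² dy =: I_x`
(`KerRepC`).  The sup bound `|R(φ) e (x)| ≤ C ‖e‖_{L²(F)}` (`SupBoundC`, = `T2.GPSKill` in the
frame of T5) gives `I_x ≤ C √I_x`, hence `I_x ≤ C²` for EVERY `x`, and
`∬_{F×F} |K_φ|² ≤ C² μ(F) < ∞` by Tonelli (`KerMeasC` for the joint measurability).

Only `IsEK μ φ` is used (not the adjoint); the analysis is entirely in `SupBoundC`.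

## Sub-leaves

* T5.02a `SupBoundC`  — THE ESTIMATE (= `T2.GPSKill` for the class of T5: functions invariant
  under the discrete ray only, `K_∞`-type `τ`).  Equivalent to `sup_x ∫_F |K_φ(x,y)|² dy < ∞`.
* T5.02b `KerRepC`    — the operator is the kernel operator (unfolding over `GL₂(K)` and `⟨r⟩`).
* T5.02c `KerAutC`    — for fixed `x` the kernel is continuous, bounded and automorphic in `y`
  (local finiteness: `GL₂(K)⟨r⟩` is discrete and closed in `GL₂(𝔸_K)`).
* T5.02d `KerMeasC`   — joint measurability of the kernel on `F × F`.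
-/

set_option autoImplicit false

open IsDedekindDomain NumberField MeasureTheory
open scoped MatrixGroups ComplexConjugate ContDiff ENNReal

noncomputable section

namespace Fermat.Agent.LT.T5.H873

open Fermat.Agent.LT.H556.A0 Fermat.Agent.LT.T5

attribute [local instance] Fermat.Agent.LT.T5.instMeasurableSpaceG

variable {K : Type} [Field K] [NumberField K]

/-- **T5.02a (THE ESTIMATE, Eisenstein-killing form; = `T2.GPSKill` in the frame of T5).**
For an Eisenstein-killing test function `φ` (smooth at infinity) there is a constant `C` with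
`|R(φ) e (x)| ≤ C ‖e‖_{L²(F)}` for every `x` and every bounded continuous automorphic function
`e` of level `𝔫` and type `τ` (invariant under the ray generator `r`).
Proof ([LV] §3, [Go] §3, Bump §3.3): `R(φ)e(x) = ∫_{N(K)\G} ∑_{ξ ∈ K} φ(x⁻¹ n(ξ) y) e(y) dy`,
Poisson summation over `K ⊂ 𝔸_K`; the term `ξ = 0` is `R(φ)` of the constant term of `e`, which
is continuous and left invariant under `N(𝔸_K) T(K)`, hence killed (`IsEK`); the terms `ξ ≠ 0`
are rapidly decreasing in the height of `x` (smoothness at infinity, local constancy at the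
finite places); on the complement of a Siegel set the kernel is bounded
(`T1.ReductionC`, `T1.SiegelCompactC`). -/
def SupBoundC (𝔫 : Ideal (𝓞 K)) (τ : G K → ℂ) : Prop :=
  ∀ (μ : Measure (G K)) (F : Set (G K)) (r : G K), IsFrame μ F → IsRayGen r →
    ∀ φ : G K → ℂ, IsTestFn 𝔫 τ φ → IsEK μ φ →
      ∃ C : ℝ, ∀ e : G K → ℂ, Continuous e → (∃ B : ℝ, ∀ g : G K, ‖e g‖ ≤ B) →
        IsAutomorphicFn 𝔫 τ r e →
        ∀ x : G K, ‖Rconv μ φ e x‖ ≤ C * Real.sqrt (∫ y in F, ‖e y‖ ^ 2 ∂μ)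

/-- **T5.02b (the operator is the kernel operator).**  For a test function `φ` and a bounded
continuous automorphic function `e`: `R(φ) e (x) = ∫_F K_φ(x, y) e(y) dy`.
Proof: `∫_G φ(y) e(xy) dy = ∫_G φ(x⁻¹ y) e(y) dy` (left invariance of `μ`),
`G = ⨆_{γ, m} γ F rᵐ` (strictness of `F` in the slab, `‖det r‖_𝔸 = 2`, product formula),
`e(γ y rᵐ) = e(y)`, and the sum is exchanged with the integral because `φ` is integrable. -/
def KerRepC (𝔫 : Ideal (𝓞 K)) (τ : G K → ℂ) : Prop :=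
  ∀ (μ : Measure (G K)) (F : Set (G K)) (r : G K), IsFrame μ F → IsRayGen r →
    ∀ φ : G K → ℂ, IsTestFn 𝔫 τ φ →
      ∀ e : G K → ℂ, Continuous e → (∃ B : ℝ, ∀ g : G K, ‖e g‖ ≤ B) →
        IsAutomorphicFn 𝔫 τ r e →
        ∀ x : G K, Rconv μ φ e x = ∫ y in F, ker0 r φ x y * e y ∂μ

/-- **T5.02c (the kernel in the second variable).**  For a test function `φ` and every `x` the
function `y ↦ K_φ(x, y)` is continuous and bounded, and its complex conjugate is an automorphic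
function of level `𝔫` and type `τ`.
Proof: the family `(γ, m) ↦ φ(x⁻¹ γ y rᵐ)` is locally finite in `y` and has at most
`#(Γ ∩ x C C⁻¹ x⁻¹)` non-zero terms for every `y` (`Γ = GL₂(K)⟨r⟩` is discrete and closed,
`C = supp φ` compact); the invariances are re-indexings of the sum, `r` is central, and
`conj (τ k)⁻¹ = τ k` because `|τ k| = 1`. -/
def KerAutC (𝔫 : Ideal (𝓞 K)) (τ : G K → ℂ) : Prop :=
  ∀ (μ : Measure (G K)) (F : Set (G K)) (r : G K), IsFrame μ F → IsRayGen r →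
    ∀ φ : G K → ℂ, IsTestFn 𝔫 τ φ →
      ∀ x : G K, Continuous (fun y => ker0 r φ x y) ∧
        (∃ B : ℝ, ∀ y : G K, ‖ker0 r φ x y‖ ≤ B) ∧
        IsAutomorphicFn 𝔫 τ r (fun y => conj (ker0 r φ x y))

/-- **T5.02d (joint measurability).**  The kernel of a test function is almost everywhere
strongly measurable on `F × F` (it is continuous on `G × G`, and `G` is second countable). -/
def KerMeasC (𝔫 : Ideal (𝓞 K)) (τ : G K → ℂ) : Prop :=
  ∀ (μ : Measure (G K)) (F : Set (G K)) (r : G K), IsFrame μ F → IsRayGen r →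
    ∀ φ : G K → ℂ, IsTestFn 𝔫 τ φ →
      AEStronglyMeasurable (fun p : G K × G K => ker0 r φ p.1 p.2)
        ((μ.restrict F).prod (μ.restrict F))

/-- The Borel structure of `G K` for the local instance of T5. -/
theorem borelSpace_G873 : BorelSpace (G K) := ⟨rfl⟩

/-- `I ≤ C √I` and `0 ≤ I` imply `I ≤ C²`. -/
theorem le_sq_of_le_mul_sqrt873 {I C : ℝ} (hI : 0 ≤ I) (h : I ≤ C * Real.sqrt I) :
    I ≤ C ^ 2 := by
  rcases eq_or_lt_of_le (Real.sqrt_nonneg I) with h0 | hpos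
  · have : I = 0 := (Real.sqrt_eq_zero hI).mp h0.symm
    rw [this]
    positivity
  · have h1 : Real.sqrt I * Real.sqrt I = I := Real.mul_self_sqrt hI
    have h2 : Real.sqrt I ≤ C := by
      by_contra hc
      rw [not_le] at hc
      have : C * Real.sqrt I < Real.sqrt I * Real.sqrt I :=
        mul_lt_mul_of_pos_right hc hpos
      linarith
    calc I = Real.sqrt I * Real.sqrt I := h1.symm
      _ ≤ C * C := mul_le_mul h2 h2 (Real.sqrt_nonneg I) (le_trans (Real.sqrt_nonneg I) h2)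
      _ = C ^ 2 := by ring

/-- **The pointwise Hilbert--Schmidt bound**: `∫_F |K_φ(x,y)|² dy ≤ C²` for every `x`. -/
theorem section_bound873 (𝔫 : Ideal (𝓞 K)) (τ : G K → ℂ)
    (hB : KerRepC 𝔫 τ) (hC : KerAutC 𝔫 τ)
    (μ : Measure (G K)) (F : Set (G K)) (r : G K) (hF : IsFrame μ F) (hr : IsRayGen r)
    (φ : G K → ℂ) (ht : IsTestFn 𝔫 τ φ) (C : ℝ)
    (hCb : ∀ e : G K → ℂ, Continuous e → (∃ B : ℝ, ∀ g : G K, ‖e g‖ ≤ B) →
        IsAutomorphicFn 𝔫 τ r e →
        ∀ x : G K, ‖Rconv μ φ e x‖ ≤ C * Real.sqrt (∫ y in F, ‖e y‖ ^ 2 ∂μ))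
    (x : G K) : ∫ y in F, ‖ker0 r φ x y‖ ^ 2 ∂μ ≤ C ^ 2 := by
  obtain ⟨hc, ⟨B, hBd⟩, haut⟩ := hC μ F r hF hr φ ht x
  have he_c : Continuous (fun y => conj (ker0 r φ x y)) := Complex.continuous_conj.comp hc
  have he_b : ∃ B : ℝ, ∀ g : G K, ‖conj (ker0 r φ x g)‖ ≤ B :=
    ⟨B, fun g => by rw [RCLike.norm_conj]; exact hBd g⟩
  have h1 := hCb _ he_c he_b haut x
  have h2 := hB μ F r hF hr φ ht _ he_c he_b haut x
  have h3 : ∫ y in F, ker0 r φ x y * conj (ker0 r φ x y) ∂μ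
      = ((∫ y in F, ‖ker0 r φ x y‖ ^ 2 ∂μ : ℝ) : ℂ) := by
    rw [← integral_complex_ofReal]
    refine integral_congr_ae (Filter.Eventually.of_forall fun y => ?_)
    simp only
    rw [Complex.mul_conj, Complex.normSq_eq_norm_sq]
  have h4 : ∫ y in F, ‖conj (ker0 r φ x y)‖ ^ 2 ∂μ = ∫ y in F, ‖ker0 r φ x y‖ ^ 2 ∂μ := by
    refine integral_congr_ae (Filter.Eventually.of_forall fun y => ?_)
    simp only
    rw [RCLike.norm_conj]
  have hI0 : 0 ≤ ∫ y in F, ‖ker0 r φ x y‖ ^ 2 ∂μ :=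
    integral_nonneg (fun _ => by positivity)
  rw [h2, h3, h4, Complex.norm_real, Real.norm_of_nonneg hI0] at h1
  exact le_sq_of_le_mul_sqrt873 hI0 h1

/-- **T5.02 from its cut.** -/
theorem leafHS0_of_cut873 (𝔫 : Ideal (𝓞 K)) (τ : G K → ℂ)
    (hA : SupBoundC 𝔫 τ) (hB : KerRepC 𝔫 τ) (hC : KerAutC 𝔫 τ) (hD : KerMeasC 𝔫 τ) :
    LeafHS0 𝔫 τ := by
  intro μ F r hF hr φ ht hek _
  have : BorelSpace (G K) := borelSpace_G873
  obtain ⟨C, hCb⟩ := hA μ F r hF hr φ ht hek
  have hfin : IsFiniteMeasure (μ.restrict F) :=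
    ⟨by rw [Measure.restrict_apply_univ]; exact hF.finite⟩
  have key := section_bound873 𝔫 τ hB hC μ F r hF hr φ ht C hCb
  have hmeas := hD μ F r hF hr φ ht
  refine ⟨hmeas, ?_⟩
  rw [eLpNorm_lt_top_iff_lintegral_rpow_enorm_lt_top (by norm_num) (by norm_num)]
  simp only [ENNReal.toReal_ofNat]
  have hae : AEMeasurable (fun p : G K × G K => ‖ker0 r φ p.1 p.2‖ₑ ^ (2 : ℝ))
      ((μ.restrict F).prod (μ.restrict F)) :=
    (hmeas.enorm).pow_const _
  rw [lintegral_prod _ hae]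
  have hsec : ∀ x : G K, ∫⁻ y, ‖ker0 r φ x y‖ₑ ^ (2 : ℝ) ∂(μ.restrict F)
      ≤ ENNReal.ofReal (C ^ 2) := by
    intro x
    obtain ⟨hc, ⟨B, hBd⟩, -⟩ := hC μ F r hF hr φ ht x
    have hint : Integrable (fun y => ‖ker0 r φ x y‖ ^ 2) (μ.restrict F) := by
      refine Integrable.of_bound (C := B ^ 2) ?_ (Filter.Eventually.of_forall fun y => ?_)
      · exact ((hc.norm).pow 2).aestronglyMeasurable
      · rw [Real.norm_of_nonneg (by positivity)]
        exact pow_le_pow_left₀ (norm_nonneg _) (hBd y) 2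
    have heq : ∫⁻ y, ‖ker0 r φ x y‖ₑ ^ (2 : ℝ) ∂(μ.restrict F)
        = ENNReal.ofReal (∫ y in F, ‖ker0 r φ x y‖ ^ 2 ∂μ) := by
      rw [ofReal_integral_eq_lintegral_ofReal hint
        (Filter.Eventually.of_forall fun y => by positivity)]
      refine lintegral_congr fun y => ?_
      rw [← ofReal_norm, ENNReal.ofReal_rpow_of_nonneg (norm_nonneg _) (by norm_num)]
      congr 1
      exact Real.rpow_two _
    rw [heq]
    exact ENNReal.ofReal_le_ofReal (key x)
  calc ∫⁻ x, ∫⁻ y, ‖ker0 r φ (x, y).1 (x, y).2‖ₑ ^ (2 : ℝ) ∂(μ.restrict F) ∂(μ.restrict F)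
      ≤ ∫⁻ _x, ENNReal.ofReal (C ^ 2) ∂(μ.restrict F) := lintegral_mono hsec
    _ = ENNReal.ofReal (C ^ 2) * μ F := by
        rw [lintegral_const, Measure.restrict_apply_univ]
    _ < ⊤ := ENNReal.mul_lt_top ENNReal.ofReal_lt_top hF.finite

end Fermat.Agent.LT.T5.H873

end
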