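import Mathlib
import Fermat.Agent.LT.T5.H873.HS0Spec
import Fermat.Agent.LT.T5.H277.Coeff

/-!
# Row LT, tower T5, sub-leaves T5.02c / T5.02d: local finiteness of the kernel sum (helper873)

OFF-MAIN.  `Γ = GL₂(K)⟨r⟩` is discrete and closed in `GL₂(𝔸_K)`:
`finite_lat873 : {(γ, m) | γ rᵐ ∈ Q}` is finite for every compact `Q`
(from `T1.DiscreteC`, `T1.AdNormC`), and the kernel `K_φ(x,y)` is a finite sum on `U × V` for
compact `U`, `V`.
-/

set_option autoImplicit false

open IsDedekindDomain NumberField MeasureTheory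
open scoped MatrixGroups ComplexConjugate ContDiff Topology Pointwise

noncomputable section

namespace Fermat.Agent.LT.T5.H873

open Fermat.Agent.LT.H556.A0 Fermat.Agent.LT.T5

attribute [local instance] Fermat.Agent.LT.T5.instMeasurableSpaceG

variable {K : Type} [Field K] [NumberField K]

/-- The lattice element `γ rᵐ`. -/
def lat873 (r : G K) (i : GL (Fin 2) K × ℤ) : G K := ratG i.1 * r ^ i.2

/-- The determinant `GL₂(𝔸_K) → 𝔸_K^×` is continuous. -/
theorem continuous_det873 :
    Continuous (Matrix.GeneralLinearGroup.det : G K → (Adl K)ˣ) := by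
  rw [Units.continuous_iff]
  constructor
  · have : (Units.val ∘ (Matrix.GeneralLinearGroup.det : G K → (Adl K)ˣ))
        = fun g : G K => (g : Matrix (Fin 2) (Fin 2) (Adl K)).det := by
      funext g; rfl
    rw [this]
    exact Continuous.matrix_det Units.continuous_val
  · have : (fun g : G K => (((Matrix.GeneralLinearGroup.det g)⁻¹ : (Adl K)ˣ) : Adl K))
        = fun g : G K => ((g⁻¹ : G K) : Matrix (Fin 2) (Fin 2) (Adl K)).det := by
      funext g
      rw [← map_inv]; rfl
    rw [this]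
    exact Continuous.matrix_det Units.continuous_coe_inv

/-- The module of the determinant is continuous. -/
theorem continuous_nd873 (hN : T1.AdNormC K) : Continuous (H277.nd277 : G K → ℝ) := by
  have h : (H277.nd277 : G K → ℝ)
      = (fun x : (Adl K)ˣ => T1.adNorm K (x : Adl K)) ∘ Matrix.GeneralLinearGroup.det := by
    funext g; rfl
  rw [h]
  exact hN.2.2.2.comp continuous_det873

theorem nd_lat873 (hN : T1.AdNormC K) {r : G K} (hr : IsRayGen r) (i : GL (Fin 2) K × ℤ) :
    H277.nd277 (lat873 r i) = (2 : ℝ) ^ i.2 := by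
  unfold lat873
  rw [H277.nd277_mul hN, H277.nd277_ratG hN, H277.nd277_zpow hN hr, one_mul]

/-- `GL₂(K) → GL₂(𝔸_K)` is injective. -/
theorem ratG_injective873 : Function.Injective (ratG : GL (Fin 2) K → G K) := by
  intro a b hab
  apply Units.ext
  have h := congrArg (fun g : G K => (g : Matrix (Fin 2) (Fin 2) (Adl K))) hab
  have h' : (a : Matrix (Fin 2) (Fin 2) K).map (algebraMap K (Adl K))
      = (b : Matrix (Fin 2) (Fin 2) K).map (algebraMap K (Adl K)) := h
  exact Matrix.map_injective (NumberField.AdeleRing.algebraMap_injective (𝓞 K) K) h'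

/-- Only finitely many rational matrices lie in a compact set. -/
theorem finite_rat873 (hD : T1.DiscreteC K) {Q : Set (G K)} (hQ : IsCompact Q) :
    {γ : GL (Fin 2) K | ratG γ ∈ Q}.Finite := by
  obtain ⟨hdisc, hclosed⟩ := hD
  have hc : IsCompact ((T1.Gam K : Set (G K)) ∩ Q) := hQ.inter_left hclosed
  have hd : DiscreteTopology ↥((T1.Gam K : Set (G K)) ∩ Q) :=
    DiscreteTopology.of_subset hdisc Set.inter_subset_left
  have hfin : ((T1.Gam K : Set (G K)) ∩ Q).Finite :=
    hc.finite (isDiscrete_iff_discreteTopology.mpr hd)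
  have hpre : {γ : GL (Fin 2) K | ratG γ ∈ Q}
      = (ratG : GL (Fin 2) K → G K) ⁻¹' ((T1.Gam K : Set (G K)) ∩ Q) := by
    ext γ
    simp only [Set.mem_ofPred_eq, Set.mem_preimage, Set.mem_inter_iff, SetLike.mem_coe]
    constructor
    · intro h
      exact ⟨⟨γ, rfl⟩, h⟩
    · intro h
      exact h.2
  rw [hpre]
  exact hfin.preimage ratG_injective873.injOn

/-- **`Γ = GL₂(K)⟨r⟩` is discrete and closed**: only finitely many `γ rᵐ` lie in a compact
set. -/
theorem finite_lat873 (hD : T1.DiscreteC K) (hN : T1.AdNormC K) {r : G K} (hr : IsRayGen r)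
    {Q : Set (G K)} (hQ : IsCompact Q) : {i : GL (Fin 2) K × ℤ | lat873 r i ∈ Q}.Finite := by
  rcases Q.eq_empty_or_nonempty with rfl | hne
  · simp
  have hcont := continuous_nd873 hN
  obtain ⟨g₀, hg₀, hmin⟩ := hQ.exists_isMinOn hne hcont.continuousOn
  obtain ⟨g₁, hg₁, hmax⟩ := hQ.exists_isMaxOn hne hcont.continuousOn
  have ha : 0 < H277.nd277 g₀ := H277.nd277_pos hN g₀
  have hb : 0 < H277.nd277 g₁ := H277.nd277_pos hN g₁
  have hM : (Set.Icc (Int.clog 2 (H277.nd277 g₀)) (Int.log 2 (H277.nd277 g₁))).Finite :=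
    Set.finite_Icc _ _
  have hfib : ∀ m : ℤ, {γ : GL (Fin 2) K | ratG γ * r ^ m ∈ Q}.Finite := by
    intro m
    have hQ' : IsCompact ((fun g : G K => g * (r ^ m)⁻¹) '' Q) :=
      hQ.image (continuous_mul_const _)
    refine (finite_rat873 hD hQ').subset ?_
    intro γ hγ
    exact ⟨ratG γ * r ^ m, hγ, by simp⟩
  refine (Set.Finite.biUnion hM (fun m _ => (hfib m).prod (Set.finite_singleton m))).subset ?_
  intro i hi
  have h2 : H277.nd277 (lat873 r i) = (2 : ℝ) ^ i.2 := nd_lat873 hN hr i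
  have hlo : H277.nd277 g₀ ≤ ((2 : ℕ) : ℝ) ^ i.2 := by
    have := hmin hi
    simp only [Set.mem_ofPred_eq] at this
    rw [h2] at this
    exact_mod_cast this
  have hhi : ((2 : ℕ) : ℝ) ^ i.2 ≤ H277.nd277 g₁ := by
    have := hmax hi
    simp only [Set.mem_ofPred_eq] at this
    rw [h2] at this
    exact_mod_cast this
  have h3 : Int.clog 2 (H277.nd277 g₀) ≤ i.2 :=
    (Int.le_zpow_iff_clog_le (by norm_num) ha).mp hlo
  have h4 : i.2 ≤ Int.log 2 (H277.nd277 g₁) :=
    (Int.zpow_le_iff_le_log (by norm_num) hb).mp hhi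
  simp only [Set.mem_iUnion, Set.mem_prod, Set.mem_ofPred_eq, Set.mem_singleton_iff,
    Set.mem_Icc, exists_prop]
  exact ⟨i.2, ⟨h3, h4⟩, hi, rfl⟩

end Fermat.Agent.LT.T5.H873

end
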