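import Mathlib
import Fermat.Agent.LT.T5.H873.KerFin

/-!
# Row LT, tower T5, sub-leaves T5.02c / T5.02d: the kernel is a locally finite sum (helper873)

OFF-MAIN.  Joint continuity of `(x, y) ↦ K_φ(x, y)` and the uniform bound in `y`.
-/

set_option autoImplicit false

open IsDedekindDomain NumberField MeasureTheory
open scoped MatrixGroups ComplexConjugate ContDiff Topology

noncomputable section

namespace Fermat.Agent.LT.T5.H873

open Fermat.Agent.LT.H556.A0 Fermat.Agent.LT.T5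

attribute [local instance] Fermat.Agent.LT.T5.instMeasurableSpaceG

variable {K : Type} [Field K] [NumberField K]

/-- The summand of the kernel. -/
def term873 (r : G K) (φ : G K → ℂ) (x y : G K) (i : GL (Fin 2) K × ℤ) : ℂ :=
  φ (x⁻¹ * ratG i.1 * y * r ^ i.2)

theorem ker0_eq_tsum873 (r : G K) (φ : G K → ℂ) (x y : G K) :
    ker0 r φ x y = ∑' γ : GL (Fin 2) K, ∑' m : ℤ, term873 r φ x y (γ, m) := rfl

/-- The kernel is a finite sum as soon as the summand vanishes outside a finite set. -/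
theorem ker0_eq_sum873 {r : G K} {φ : G K → ℂ} {x y : G K} (S : Finset (GL (Fin 2) K × ℤ))
    (hS : ∀ i ∉ S, term873 r φ x y i = 0) :
    ker0 r φ x y = ∑ i ∈ S, term873 r φ x y i := by
  rw [ker0_eq_tsum873]
  have hsum : Summable (term873 r φ x y) := summable_of_ne_finset_zero hS
  rw [← hsum.tsum_prod]
  exact tsum_eq_sum hS

/-- The argument of the summand in terms of the lattice element. -/
theorem term_arg873 {r : G K} (hr : IsRayGen r) (x y : G K) (i : GL (Fin 2) K × ℤ) :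
    x⁻¹ * ratG i.1 * y * r ^ i.2 = x⁻¹ * lat873 r i * y := by
  unfold lat873
  rw [mul_assoc (x⁻¹ * ratG i.1), ← H277.ray_zpow_comm277 hr y i.2]
  simp only [mul_assoc]

/-- A non-zero summand puts the lattice element into `x · supp φ · y⁻¹`. -/
theorem lat_mem_of_term_ne873 {r : G K} (hr : IsRayGen r) {φ : G K → ℂ} {x y : G K}
    {i : GL (Fin 2) K × ℤ} (h : term873 r φ x y i ≠ 0) :
    ∃ c ∈ tsupport φ, lat873 r i = x * c * y⁻¹ := by
  refine ⟨x⁻¹ * lat873 r i * y, ?_, by group⟩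
  rw [← term_arg873 hr]
  exact subset_tsupport _ h

/-- The compact set `U · supp φ · V⁻¹`. -/
def box873 (φ : G K → ℂ) (U V : Set (G K)) : Set (G K) :=
  (fun p : G K × G K × G K => p.1 * p.2.1 * p.2.2⁻¹) '' (U ×ˢ (tsupport φ ×ˢ V))

theorem isCompact_box873 {φ : G K → ℂ} (hφs : HasCompactSupport φ) {U V : Set (G K)}
    (hU : IsCompact U) (hV : IsCompact V) : IsCompact (box873 φ U V) :=
  (hU.prod (hφs.prod hV)).image
    ((continuous_fst.mul (continuous_fst.comp continuous_snd)).mul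
      ((continuous_snd.comp continuous_snd).inv))

theorem lat_mem_box873 {r : G K} (hr : IsRayGen r) {φ : G K → ℂ} {U V : Set (G K)} {x y : G K}
    (hx : x ∈ U) (hy : y ∈ V) {i : GL (Fin 2) K × ℤ} (h : term873 r φ x y i ≠ 0) :
    lat873 r i ∈ box873 φ U V := by
  obtain ⟨c, hc, he⟩ := lat_mem_of_term_ne873 hr h
  exact ⟨(x, c, y), ⟨hx, hc, hy⟩, he.symm⟩

/-- **Joint continuity of the kernel.** -/
theorem continuous_ker0_873 (hL : T1.LocCompC K) (hD : T1.DiscreteC K) (hN : T1.AdNormC K)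
    {r : G K} (hr : IsRayGen r) {φ : G K → ℂ} (hφc : Continuous φ)
    (hφs : HasCompactSupport φ) : Continuous (fun p : G K × G K => ker0 r φ p.1 p.2) := by
  have : LocallyCompactSpace (G K) := hL.2.1
  rw [continuous_iff_continuousAt]
  rintro ⟨x₀, y₀⟩
  obtain ⟨U, hUc, hUn⟩ := exists_compact_mem_nhds x₀
  obtain ⟨V, hVc, hVn⟩ := exists_compact_mem_nhds y₀
  have hfin := finite_lat873 hD hN hr (isCompact_box873 hφs hUc hVc)
  have hS : ∀ x ∈ U, ∀ y ∈ V, ∀ i ∉ hfin.toFinset, term873 r φ x y i = 0 := by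
    intro x hx y hy i hi
    by_contra hne
    exact hi (hfin.mem_toFinset.mpr (lat_mem_box873 hr hx hy hne))
  have heq : (fun p : G K × G K => ∑ i ∈ hfin.toFinset, term873 r φ p.1 p.2 i)
      =ᶠ[𝓝 (x₀, y₀)] (fun p : G K × G K => ker0 r φ p.1 p.2) := by
    filter_upwards [prod_mem_nhds hUn hVn] with p hp
    exact (ker0_eq_sum873 _ (hS p.1 hp.1 p.2 hp.2)).symm
  have hc : Continuous (fun p : G K × G K => ∑ i ∈ hfin.toFinset, term873 r φ p.1 p.2 i) := by
    refine continuous_finsetSum _ (fun i _ => ?_)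
    unfold term873
    exact hφc.comp
      (((continuous_fst.inv.mul continuous_const).mul continuous_snd).mul continuous_const)
  exact hc.continuousAt.congr heq

/-- Quotients of lattice elements. -/
theorem lat_div873 {r : G K} (hr : IsRayGen r) (i j : GL (Fin 2) K × ℤ) :
    lat873 r (i.1 * j.1⁻¹, i.2 - j.2) = lat873 r i * (lat873 r j)⁻¹ := by
  unfold lat873
  have hcb : r ^ i.2 * (ratG j.1 : G K)⁻¹ = (ratG j.1 : G K)⁻¹ * r ^ i.2 :=
    H277.ray_zpow_comm277 hr _ _
  have hdb : (r ^ j.2)⁻¹ * (ratG j.1 : G K)⁻¹ = (ratG j.1 : G K)⁻¹ * (r ^ j.2)⁻¹ := by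
    rw [← zpow_neg]
    exact H277.ray_zpow_comm277 hr _ _
  simp only [map_mul, map_inv, mul_inv_rev, zpow_sub]
  calc ratG i.1 * (ratG j.1 : G K)⁻¹ * (r ^ i.2 * (r ^ j.2)⁻¹)
      = ratG i.1 * ((ratG j.1 : G K)⁻¹ * r ^ i.2) * (r ^ j.2)⁻¹ := by simp only [mul_assoc]
    _ = ratG i.1 * (r ^ i.2 * (ratG j.1 : G K)⁻¹) * (r ^ j.2)⁻¹ := by rw [hcb]
    _ = ratG i.1 * r ^ i.2 * ((ratG j.1 : G K)⁻¹ * (r ^ j.2)⁻¹) := by simp only [mul_assoc]
    _ = ratG i.1 * r ^ i.2 * ((r ^ j.2)⁻¹ * (ratG j.1 : G K)⁻¹) := by rw [hdb]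

/-- **The kernel is bounded in the second variable.** -/
theorem bdd_ker0_873 (hD : T1.DiscreteC K) (hN : T1.AdNormC K)
    {r : G K} (hr : IsRayGen r) {φ : G K → ℂ} (hφc : Continuous φ)
    (hφs : HasCompactSupport φ) (x : G K) : ∃ B : ℝ, ∀ y : G K, ‖ker0 r φ x y‖ ≤ B := by
  obtain ⟨M, hM⟩ := hφs.exists_bound_of_continuous hφc
  have hM0 : 0 ≤ M := le_trans (norm_nonneg _) (hM 1)
  -- the set of quotients
  have hT := finite_lat873 hD hN hr
    (isCompact_box873 hφs (isCompact_singleton (x := x))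
      ((hφs.image (continuous_const_mul x)) : IsCompact ((fun c => x * c) '' tsupport φ)))
  refine ⟨hT.toFinset.card * M, fun y => ?_⟩
  have hfin := finite_lat873 hD hN hr
    (isCompact_box873 hφs (isCompact_singleton (x := x)) (isCompact_singleton (x := y)))
  classical
  set S := hfin.toFinset.filter (fun i => term873 r φ x y i ≠ 0) with hSdef
  have hS : ∀ i ∉ S, term873 r φ x y i = 0 := by
    intro i hi
    by_contra hne
    apply hi
    rw [hSdef, Finset.mem_filter]
    exact ⟨hfin.mem_toFinset.mpr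
      (lat_mem_box873 hr (Set.mem_singleton x) (Set.mem_singleton y) hne), hne⟩
  rw [ker0_eq_sum873 S hS]
  have hcard : S.card ≤ hT.toFinset.card := by
    rcases S.eq_empty_or_nonempty with h0 | ⟨j, hj⟩
    · rw [h0]; simp
    · have hjne : term873 r φ x y j ≠ 0 := (Finset.mem_filter.mp hj).2
      obtain ⟨c₀, hc₀, he₀⟩ := lat_mem_of_term_ne873 hr hjne
      refine Finset.card_le_card_of_injOn (fun i => (i.1 * j.1⁻¹, i.2 - j.2)) ?_ ?_
      · intro i hi
        have hine : term873 r φ x y i ≠ 0 := (Finset.mem_filter.mp hi).2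
        obtain ⟨c, hc, he⟩ := lat_mem_of_term_ne873 hr hine
        rw [Finset.mem_coe, hT.mem_toFinset, Set.mem_ofPred_eq, lat_div873 hr, he, he₀]
        refine ⟨(x, c, x * c₀), ⟨Set.mem_singleton x, hc, ⟨c₀, hc₀, rfl⟩⟩, ?_⟩
        simp only
        group
      · intro a _ b _ hab
        simp only [Prod.mk.injEq] at hab
        refine Prod.ext ?_ ?_
        · exact mul_right_cancel hab.1
        · have := hab.2
          omega
  calc ‖∑ i ∈ S, term873 r φ x y i‖ ≤ ∑ i ∈ S, ‖term873 r φ x y i‖ := norm_sum_le _ _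
    _ ≤ ∑ _i ∈ S, M := Finset.sum_le_sum (fun i _ => hM _)
    _ = S.card * M := by rw [Finset.sum_const, nsmul_eq_mul]
    _ ≤ hT.toFinset.card * M := by
        apply mul_le_mul_of_nonneg_right _ hM0
        exact_mod_cast hcard

end Fermat.Agent.LT.T5.H873

end
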