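import Mathlib
import Fermat.Agent.LT.T5.H873.HS0Spec
import Fermat.Agent.LT.T5.H277.Coeff

/-!
# Row LT, tower T5, sub-leaf T5.02b `KerRepC` (helper873)

OFF-MAIN.  `kerRepC873 : T1.AdNormC K → KerRepC 𝔫 τ`, on the unfolding toolbox of helper277
(`Fermat/Agent/LT/T5/H277/`, byte-identical copies): the operator `R(φ)` on the bounded continuous
automorphic functions is the kernel operator of `K_φ`.
-/

set_option autoImplicit false

open IsDedekindDomain NumberField MeasureTheory
open scoped MatrixGroups ComplexConjugate ContDiff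

noncomputable section

namespace Fermat.Agent.LT.T5.H873

open Fermat.Agent.LT.H556.A0 Fermat.Agent.LT.T5

attribute [local instance] Fermat.Agent.LT.T5.instMeasurableSpaceG

variable {K : Type} [Field K] [NumberField K]

/-- **T5.02b `KerRepC`**, conditional on the interface Prop `T1.AdNormC` of tower T1. -/
theorem kerRepC873 (hN : T1.AdNormC K) (𝔫 : Ideal (𝓞 K)) (τ : G K → ℂ) : KerRepC 𝔫 τ := by
  intro μ F r hF hr φ ht e hec _ hea x
  have hWv : ∀ (i : GL (Fin 2) K × ℤ) (y : G K),
      e (H277.tile277 (AdelicAut.id K) r i y) = e y := by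
    intro i y
    unfold H277.tile277
    rw [H277.id_onG277, H277.ray_zpow_inv277 hea.ray, hea.left_inv]
  have h := H277.twKer_integral277 hN hF hr (H277.autPreserves_id277 𝔫 μ r) ht.cont ht.supp
    hec hWv x
  rw [← h]
  refine integral_congr_ae (Filter.Eventually.of_forall fun y => ?_)
  simp only
  rw [H277.ker0_eq_twKer277]

end Fermat.Agent.LT.T5.H873

end
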