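import Mathlib
import Fermat.Agent.LT.T5.H873.KerSum
import Fermat.Agent.LT.T5.H873.KerRep

/-!
# Row LT, tower T5: sub-leaves T5.02c `KerAutC`, T5.02d `KerMeasC`, and the ADAPTER
`leafHS0_of_supBound873 : T1.LocCompC K → T1.DiscreteC K → T1.AdNormC K → SupBoundC 𝔫 τ →
  LeafHS0 𝔫 τ` (helper873)

OFF-MAIN.  After this file T5.02 `LeafHS0` is equivalent to ONE analytic statement, `SupBoundC`
(= `T2.GPSKill` in the class of T5), relative to the closed interface Props of tower T1.
-/

set_option autoImplicit false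

open IsDedekindDomain NumberField MeasureTheory
open scoped MatrixGroups ComplexConjugate ContDiff Topology

noncomputable section

namespace Fermat.Agent.LT.T5.H873

open Fermat.Agent.LT.H556.A0 Fermat.Agent.LT.T5

attribute [local instance] Fermat.Agent.LT.T5.instMeasurableSpaceG

variable {K : Type} [Field K] [NumberField K]

/-! ## Invariance properties of the kernel in the second variable (re-indexing) -/

theorem ker0_left_inv873 (r : G K) (φ : G K → ℂ) (x y : G K) (γ' : GL (Fin 2) K) :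
    ker0 r φ x (ratG γ' * y) = ker0 r φ x y := by
  unfold ker0
  have h : ∀ γ : GL (Fin 2) K,
      flat r φ (x⁻¹ * ratG γ * (ratG γ' * y)) = flat r φ (x⁻¹ * ratG (γ * γ') * y) := by
    intro γ
    rw [map_mul]
    simp only [mul_assoc]
  simp_rw [h]
  exact (Equiv.mulRight γ').tsum_eq (fun γ => flat r φ (x⁻¹ * ratG γ * y))

theorem flat_mul_right873 {r : G K} (hr : IsRayGen r) (φ : G K → ℂ) (g u : G K) (c : ℂ)
    (h : ∀ g' : G K, φ (g' * u) = c * φ g') : flat r φ (g * u) = c * flat r φ g := by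
  unfold flat
  rw [← tsum_mul_left]
  congr 1
  funext m
  rw [mul_assoc, ← H277.ray_zpow_comm277 hr u m, ← mul_assoc, h]

theorem ker0_mul_right873 {r : G K} (hr : IsRayGen r) (φ : G K → ℂ) (x y u : G K) (c : ℂ)
    (h : ∀ g' : G K, φ (g' * u) = c * φ g') : ker0 r φ x (y * u) = c * ker0 r φ x y := by
  unfold ker0
  rw [← tsum_mul_left]
  congr 1
  funext γ
  rw [← mul_assoc, flat_mul_right873 hr φ _ u c h]

theorem flat_ray873 (r : G K) (φ : G K → ℂ) (g : G K) : flat r φ (g * r) = flat r φ g := by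
  unfold flat
  have h : ∀ m : ℤ, φ (g * r * r ^ m) = φ (g * r ^ (m + 1)) := by
    intro m
    rw [mul_assoc, ← zpow_one_add, add_comm]
  simp_rw [h]
  exact (Equiv.addRight (1 : ℤ)).tsum_eq (fun m => φ (g * r ^ m))

theorem ker0_ray873 (r : G K) (φ : G K → ℂ) (x y : G K) :
    ker0 r φ x (y * r) = ker0 r φ x y := by
  unfold ker0
  congr 1
  funext γ
  rw [← mul_assoc, flat_ray873]

/-- `conj (τ k)⁻¹ = τ k` for a unitary value. -/
theorem conj_inv_of_norm_one873 {z : ℂ} (hz : ‖z‖ = 1) : conj (z⁻¹) = z := by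
  have hz0 : z ≠ 0 := by
    intro h
    rw [h, norm_zero] at hz
    exact zero_ne_one hz
  have h1 : conj z * z = 1 := by
    rw [mul_comm, Complex.mul_conj, Complex.normSq_eq_norm_sq, hz]
    simp
  rw [map_inv₀, eq_inv_of_mul_eq_one_left h1, inv_inv]

/-- **T5.02c `KerAutC`**, conditional on interface Props of tower T1. -/
theorem kerAutC873 (hD : T1.DiscreteC K) (hL : T1.LocCompC K) (hN : T1.AdNormC K)
    (𝔫 : Ideal (𝓞 K)) (τ : G K → ℂ) : KerAutC 𝔫 τ := by
  intro μ F r hF hr φ ht x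
  refine ⟨?_, bdd_ker0_873 hD hN hr ht.cont ht.supp x, ?_⟩
  · have hc := continuous_ker0_873 hL hD hN hr ht.cont ht.supp
    have h2 : Continuous (fun y : G K => ((x, y) : G K × G K)) :=
      continuous_const.prodMk continuous_id
    have h3 : Continuous ((fun p : G K × G K => ker0 r φ p.1 p.2) ∘
        (fun y : G K => ((x, y) : G K × G K))) := hc.comp h2
    exact h3
  · refine ⟨?_, ?_, ?_, ?_⟩
    · intro γ g
      rw [ker0_left_inv873]
    · intro u hu g
      rw [ker0_mul_right873 hr φ x g u 1 (fun g' => by rw [ht.inv.level_right u hu, one_mul]),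
        one_mul]
    · intro w k hk g
      rw [ker0_mul_right873 hr φ x g k (τ k)⁻¹ (fun g' => ht.inv.arch_right w k hk g'),
        map_mul, conj_inv_of_norm_one873 (ht.ktype.norm_one w k hk)]
    · intro g
      rw [ker0_ray873]

/-- **T5.02d `KerMeasC`**, conditional on interface Props of tower T1. -/
theorem kerMeasC873 (hD : T1.DiscreteC K) (hL : T1.LocCompC K) (hN : T1.AdNormC K)
    (𝔫 : Ideal (𝓞 K)) (τ : G K → ℂ) : KerMeasC 𝔫 τ := by
  intro μ F r hF hr φ ht
  have : BorelSpace (G K) := borelSpace_G873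
  have : SecondCountableTopology (G K) := hL.2.2.2
  exact (continuous_ker0_873 hL hD hN hr ht.cont ht.supp).aestronglyMeasurable

/-- **THE ADAPTER: T5.02 `LeafHS0` from the sup bound** (`T2.GPSKill` in the class of T5),
relative to the interface Props `LocCompC`, `DiscreteC`, `AdNormC` of tower T1. -/
theorem leafHS0_of_supBound873 (hL : T1.LocCompC K) (hD : T1.DiscreteC K) (hN : T1.AdNormC K)
    (𝔫 : Ideal (𝓞 K)) (τ : G K → ℂ) (hA : SupBoundC 𝔫 τ) : LeafHS0 𝔫 τ :=
  leafHS0_of_cut873 𝔫 τ hA (kerRepC873 hN 𝔫 τ) (kerAutC873 hD hL hN 𝔫 τ)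
    (kerMeasC873 hD hL hN 𝔫 τ)

/-- The same from the output of tower T1. -/
theorem leafHS0_of_T1Out873 (h : T1.T1Out K) (𝔫 : Ideal (𝓞 K)) (τ : G K → ℂ)
    (hA : SupBoundC 𝔫 τ) : LeafHS0 𝔫 τ :=
  leafHS0_of_supBound873 h.locComp h.discrete h.adNorm 𝔫 τ hA

end Fermat.Agent.LT.T5.H873

end
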