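import Mathlib
import Fermat.Agent.LT.T5.H873.KerAut
import Fermat.Agent.LT.T5.H74.Range

/-!
# Row LT, tower T5: ADAPTERS for T5.04 `LeafRange` (helper873, on the delivery of helper74)

OFF-MAIN.  Two of the three inputs of `H74.leafRange_of74` (helper74, `LT/T5/H74/Range.lean`,
byte-identical copies) are discharged:

* `locFinC74_873 : T1.DiscreteC K → T1.AdNormC K → H74.LocFinC74 K`;
* `rowBoundC74_of_supBound873 : T1.LocCompC K → T1.DiscreteC K → T1.AdNormC K →
    SupBoundC 𝔫 τ → H74.RowBoundC74 𝔫 τ` (the uniform row bound IS the pointwise bound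
  `∫_F |K_φ(x,y)|² dy ≤ C²` of `section_bound873`).

So T5.02 and T5.04 hang on ONE analytic statement, `SupBoundC` (= `T2.GPSKill` in the class of
T5), and T5.04 in addition on `H74.KerCuspC74`.
-/

set_option autoImplicit false

open IsDedekindDomain NumberField MeasureTheory
open scoped MatrixGroups ComplexConjugate ContDiff Topology ENNReal

noncomputable section

namespace Fermat.Agent.LT.T5.H873

open Fermat.Agent.LT.H556.A0 Fermat.Agent.LT.T5

attribute [local instance] Fermat.Agent.LT.T5.instMeasurableSpaceG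

variable {K : Type} [Field K] [NumberField K]

/-- The input `LocFinC74` of helper74 from tower T1. -/
theorem locFinC74_873 (hD : T1.DiscreteC K) (hN : T1.AdNormC K) : H74.LocFinC74 K :=
  fun _ hr _ hC => finite_lat873 hD hN hr hC

/-- The input `RowBoundC74` of helper74 from the sup bound. -/
theorem rowBoundC74_of_supBound873 (hL : T1.LocCompC K) (hD : T1.DiscreteC K)
    (hN : T1.AdNormC K) (𝔫 : Ideal (𝓞 K)) (τ : G K → ℂ) (hA : SupBoundC 𝔫 τ) :
    H74.RowBoundC74 𝔫 τ := by
  intro μ F r hF hr φ ht hek _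
  have : BorelSpace (G K) := borelSpace_G873
  obtain ⟨C, hCb⟩ := hA μ F r hF hr φ ht hek
  have hfin : IsFiniteMeasure (μ.restrict F) :=
    ⟨by rw [Measure.restrict_apply_univ]; exact hF.finite⟩
  have hKA := kerAutC873 hD hL hN 𝔫 τ
  have key := section_bound873 𝔫 τ (kerRepC873 hN 𝔫 τ) hKA μ F r hF hr φ ht C hCb
  refine ⟨ENNReal.ofReal (C ^ 2) ^ (1 / (2 : ℝ)), ?_, fun x => ?_⟩
  · exact ENNReal.rpow_lt_top_of_nonneg (by norm_num) ENNReal.ofReal_ne_top
  · obtain ⟨hc, ⟨B, hBd⟩, -⟩ := hKA μ F r hF hr φ ht x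
    have hint : Integrable (fun y => ‖ker0 r φ x y‖ ^ 2) (μ.restrict F) := by
      refine Integrable.of_bound (C := B ^ 2) ?_ (Filter.Eventually.of_forall fun y => ?_)
      · exact ((hc.norm).pow 2).aestronglyMeasurable
      · rw [Real.norm_of_nonneg (by positivity)]
        exact pow_le_pow_left₀ (norm_nonneg _) (hBd y) 2
    have heq : ∫⁻ y, ‖ker0 r φ x y‖ₑ ^ (2 : ℝ) ∂(μ.restrict F)
        = ENNReal.ofReal (∫ y in F, ‖ker0 r φ x y‖ ^ 2 ∂μ) := by
      rw [ofReal_integral_eq_lintegral_ofReal hint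
        (Filter.Eventually.of_forall fun y => by positivity)]
      refine lintegral_congr fun y => ?_
      rw [← ofReal_norm, ENNReal.ofReal_rpow_of_nonneg (norm_nonneg _) (by norm_num)]
      congr 1
      exact Real.rpow_two _
    rw [eLpNorm_eq_lintegral_rpow_enorm_toReal (by norm_num) (by norm_num)]
    simp only [ENNReal.toReal_ofNat]
    rw [heq]
    exact ENNReal.rpow_le_rpow (ENNReal.ofReal_le_ofReal (key x)) (by norm_num)

/-- **T5.04 `LeafRange` from the sup bound and the cuspidality of the kernel**, relative to the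
interface Props of T1 (in the form of T1 and in the form in which T3 takes them). -/
theorem leafRange_of_supBound873 (hL : T1.LocCompC K) (hD : T1.DiscreteC K)
    (hN : T1.AdNormC K) (hloc : T3.InLocCompC K) (hlat : T3.InLatticeC K)
    (hfd : T3.InFundDomC K) (𝔫 : Ideal (𝓞 K)) (τ : G K → ℂ) (hA : SupBoundC 𝔫 τ)
    (hcusp : H74.KerCuspC74 𝔫 τ) : LeafRange 𝔫 τ :=
  H74.leafRange_of74 𝔫 τ hloc hlat hfd (locFinC74_873 hD hN)
    (rowBoundC74_of_supBound873 hL hD hN 𝔫 τ hA) hcusp

end Fermat.Agent.LT.T5.H873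

end
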