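import Mathlib
import Fermat.Agent.LT.T5.H873.HS0Spec
import Fermat.Agent.LT.T2.SpecTau
import Fermat.Agent.LT.T3.H315.ConstTermT

/-!
# Row LT, towers T2 → T5: ADAPTER `T2.GPSKillT → SupBoundC` (helper873)

OFF-MAIN.  `supBoundC_of_gpsKillT873 : T1.LocCompC K → T1.AdeleLatticeC K → T1.AddFundDomC K →
  T2.GPSKillT K 𝔫 τ → SupBoundC 𝔫 τ`, on `T2/SpecTau.lean` (helper130, sha256 4d2b0fc2),
`T5/Spec.lean` v4 (helper32, sha256 f2d97e70) and the constant-term toolbox of helper237 /
helper315 (byte-identical copies).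

The only content is `KillsConstTermsT` from `T5.IsEK`: a constant term `Ψ` (`T2.IsConstTerm ψ Ψ`)
of a bounded continuous automorphic `ψ`, invariant under the ray generator, is continuous, left
invariant under `N(𝔸_K)` and under the rational diagonal matrices and right invariant under the
ray generator, i.e. `T5.IsBorelInvariantFn Ψ` (v4).
-/

set_option autoImplicit false

open IsDedekindDomain NumberField MeasureTheory
open scoped MatrixGroups ComplexConjugate ContDiff Topology

noncomputable section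

namespace Fermat.Agent.LT.T5.H873

open Fermat.Agent.LT.H556.A0 Fermat.Agent.LT.T5

attribute [local instance] Fermat.Agent.LT.T5.instMeasurableSpaceG

variable {K : Type} [Field K] [NumberField K]

section ConstTerm

variable [MeasurableSpace (Adl K)] [BorelSpace (Adl K)]
  [LocallyCompactSpace (Adl K)] [SecondCountableTopology (Adl K)]
  [SecondCountableTopology (G K)]

/-- The integral `g ↦ ∫_D ψ(n(x) g) dx` is Borel-invariant. -/
theorem borelInv_integral873
    (hcoc : ∃ C : Set (Adl K), IsCompact C ∧ ∀ x : Adl K, ∃ ξ : K, x - algebraMap K (Adl K) ξ ∈ C)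
    (μ' : Measure (Adl K)) [μ'.IsAddHaarMeasure]
    (D : Set (Adl K)) (hD : IsAddFundamentalDomain (T3.H237.princ237 K) D μ')
    {r : G K} (hr : IsRayGen r) {ψ : G K → ℂ} (hc : Continuous ψ)
    (hb : ∃ C : ℝ, ∀ g : G K, ‖ψ g‖ ≤ C)
    (hl : ∀ (γ : GL (Fin 2) K) (g : G K), ψ (ratG γ * g) = ψ g)
    (hray : ∀ g : G K, ψ (g * r) = ψ g) (c : ℂ) :
    IsBorelInvariantFn (fun g => c * ∫ x in D, ψ (T3.unip K x * g) ∂μ') := by
  have : BorelSpace (G K) := ⟨rfl⟩
  obtain ⟨C, hC⟩ := hb
  have hDfin : μ' D < ⊤ := T3.H237.measure_fundDom_lt_top237 K μ' hcoc D hD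
  have : IsFiniteMeasure (μ'.restrict D) := ⟨by simpa using hDfin⟩
  have hper : ∀ g : G K, T3.H237.IsPer237 K (fun x => ψ (T3.unip K x * g)) := by
    intro g ξ x
    show ψ (T3.unip K (x + algebraMap K (Adl K) ξ) * g) = ψ (T3.unip K x * g)
    rw [add_comm, T3.H237.unip_add237, T3.H237.unip_emb237, mul_assoc]
    exact hl _ _
  refine ⟨?_, ?_, ?_, ?_⟩
  · -- continuity
    refine continuous_const.mul ?_
    refine continuous_of_dominated (bound := fun _ => C) ?_ ?_ ?_ ?_
    · intro g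
      exact (hc.comp ((T3.H237.continuous_unip237 K).mul continuous_const)).aestronglyMeasurable
    · intro g
      exact Filter.Eventually.of_forall fun x => hC _
    · exact integrable_const _
    · exact Filter.Eventually.of_forall fun x =>
        hc.comp (continuous_const.mul continuous_id)
  · -- invariance under `N(𝔸_K)`
    intro n y hn g
    have hny : n = T3.unip K y := by
      apply Units.ext
      rw [hn, T3.unip_coe]
    subst hny
    show c * ∫ x in D, ψ (T3.unip K x * (T3.unip K y * g)) ∂μ'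
      = c * ∫ x in D, ψ (T3.unip K x * g) ∂μ'
    congr 1
    have h := T3.H237.setIntegral_add_right237 K μ' D hD _ (hper g) y
    rw [← h]
    refine integral_congr_ae (Filter.Eventually.of_forall fun x => ?_)
    show ψ (T3.unip K x * (T3.unip K y * g)) = ψ (T3.unip K (x + y) * g)
    rw [T3.H237.unip_add237, mul_assoc]
  · -- invariance under the rational diagonal matrices
    intro t a b ht g
    obtain ⟨ha, hb'⟩ := T3.H315.diag_entries_ne_zero315 K t a b ht
    have hab : a * b⁻¹ ≠ 0 := mul_ne_zero ha (inv_ne_zero hb')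
    have hinv : (((Units.mk0 (a * b⁻¹) hab)⁻¹ : Kˣ) : K) = a⁻¹ * b := by
      rw [Units.val_inv_eq_inv_val, Units.val_mk0, mul_inv, inv_inv]
    show c * ∫ x in D, ψ (T3.unip K x * (ratG t * g)) ∂μ'
      = c * ∫ x in D, ψ (T3.unip K x * g) ∂μ'
    congr 1
    have h := T3.H237.setIntegral_mulK237 K μ' hcoc D hD _ (hper g) (Units.mk0 (a * b⁻¹) hab)
    rw [← h]
    refine integral_congr_ae (Filter.Eventually.of_forall fun x => ?_)
    show ψ (T3.unip K x * (Matrix.GeneralLinearGroup.map (algebraMap K (Adl K)) t * g))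
      = ψ (T3.unip K (algebraMap K (Adl K) (((Units.mk0 (a * b⁻¹) hab)⁻¹ : Kˣ) : K) * x) * g)
    rw [hinv, ← mul_assoc, T3.H315.unip_mul_diag315 K t a b ht, mul_assoc]
    exact hl _ _
  · -- invariance under the ray generator
    refine ⟨r, hr, fun g => ?_⟩
    show c * ∫ x in D, ψ (T3.unip K x * (g * r)) ∂μ' = c * ∫ x in D, ψ (T3.unip K x * g) ∂μ'
    congr 1
    refine integral_congr_ae (Filter.Eventually.of_forall fun x => ?_)
    show ψ (T3.unip K x * (g * r)) = ψ (T3.unip K x * g)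
    rw [← mul_assoc]
    exact hray _

end ConstTerm

/-- **The constant term of an automorphic function of the frame is Borel-invariant (v4).** -/
theorem borelInv_of_constTerm873 (hL : T1.LocCompC K) (hLat : T1.AdeleLatticeC K)
    (hFD : T1.AddFundDomC K) {r : G K} (hr : IsRayGen r) {ψ Ψ : G K → ℂ} (hc : Continuous ψ)
    (hb : ∃ C : ℝ, ∀ g : G K, ‖ψ g‖ ≤ C)
    (hl : ∀ (γ : GL (Fin 2) K) (g : G K), ψ (ratG γ * g) = ψ g)
    (hray : ∀ g : G K, ψ (g * r) = ψ g) (hΨ : T2.IsConstTerm ψ Ψ) :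
    IsBorelInvariantFn Ψ := by
  let _ : MeasurableSpace (Adl K) := borel (Adl K)
  have : BorelSpace (Adl K) := ⟨rfl⟩
  obtain ⟨⟨h1, h2, h3⟩, -, -, h4⟩ := hL
  obtain ⟨-, -, hcoc⟩ := hLat
  obtain ⟨D, -, hD, -, hpos, hfin⟩ := hFD Measure.addHaar inferInstance
  have hvol : (((Measure.addHaar (G := Adl K) D).toReal : ℝ) : ℂ) ≠ 0 := by
    have : 0 < (Measure.addHaar (G := Adl K) D).toReal := ENNReal.toReal_pos hpos.ne' hfin.ne
    exact_mod_cast this.ne'
  have hΨeq : Ψ = fun g => (((Measure.addHaar (G := Adl K) D).toReal : ℝ) : ℂ)⁻¹ *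
      ∫ x in D, ψ (T3.unip K x * g) ∂(Measure.addHaar (G := Adl K)) := by
    funext g
    have h := hΨ Measure.addHaar inferInstance D hD (T3.unip K) (fun x => T3.unip_coe K x) g
    rw [h, ← mul_assoc, inv_mul_cancel₀ hvol, one_mul]
  rw [hΨeq]
  exact borelInv_integral873 hcoc Measure.addHaar D hD hr hc hb hl hray _

/-- The frame of T2 attached to a frame of T5. -/
def frameR873 {μ : Measure (G K)} {F : Set (G K)} {r : G K} (hF : IsFrame μ F)
    (hr : IsRayGen r) : T2.FrameR K where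
  F := { μ := μ, haar := hF.haar, D := F, meas := hF.meas, sub := hF.sub,
         strict := hF.strict, fin := hF.finite }
  r := r
  ray := hr

/-- **ADAPTER T2 → T5: the sup bound from `T2.GPSKillT`.** -/
theorem supBoundC_of_gpsKillT873 (hL : T1.LocCompC K) (hLat : T1.AdeleLatticeC K)
    (hFD : T1.AddFundDomC K) (𝔫 : Ideal (𝓞 K)) (τ : G K → ℂ) (h : T2.GPSKillT K 𝔫 τ) :
    SupBoundC 𝔫 τ := by
  intro μ F r hF hr φ ht hek
  have hT : T2.IsTestT 𝔫 τ φ :=
    ⟨ht.cont, ht.smooth, ht.supp, ht.inv.level_right, ht.inv.level_left, ht.inv.arch_right,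
      ht.inv.arch_left⟩
  have hK : T2.KillsConstTermsT 𝔫 τ (frameR873 hF hr) φ := by
    intro ψ Ψ hψ hΨ x
    have hB : IsBorelInvariantFn Ψ :=
      borelInv_of_constTerm873 hL hLat hFD hr hψ.cont hψ.bdd hψ.left_inv hψ.ray hΨ
    have h0 := hek Ψ hB x
    have : T2.conv (frameR873 hF hr).F φ Ψ x = Rconv μ φ Ψ x := by
      show ∫ h, Ψ (x * h) * φ h ∂μ = ∫ y, φ y * Ψ (x * y) ∂μ
      refine integral_congr_ae (Filter.Eventually.of_forall fun y => ?_)
      exact mul_comm _ _
    rw [this, h0]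
  obtain ⟨C, hC⟩ := h (frameR873 hF hr) φ hT hK
  refine ⟨C, fun e hec heb hea x => ?_⟩
  have hψ : T2.IsAutT 𝔫 τ r e :=
    ⟨hec, heb, hea.left_inv, hea.level_inv, hea.arch_compact, hea.ray⟩
  have h1 := hC e hψ x
  have h2 : T2.conv (frameR873 hF hr).F φ e x = Rconv μ φ e x := by
    show ∫ h, e (x * h) * φ h ∂μ = ∫ y, φ y * e (x * y) ∂μ
    refine integral_congr_ae (Filter.Eventually.of_forall fun y => ?_)
    exact mul_comm _ _
  have h3 : T2.nsq (frameR873 hF hr).F e = ∫ y in F, ‖e y‖ ^ 2 ∂μ := by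
    show (∫ g in F, e g * (starRingEnd ℂ) (e g) ∂μ).re = ∫ y in F, ‖e y‖ ^ 2 ∂μ
    have : ∫ g in F, e g * (starRingEnd ℂ) (e g) ∂μ
        = ((∫ y in F, ‖e y‖ ^ 2 ∂μ : ℝ) : ℂ) := by
      rw [← integral_complex_ofReal]
      refine integral_congr_ae (Filter.Eventually.of_forall fun y => ?_)
      simp only
      rw [Complex.mul_conj, Complex.normSq_eq_norm_sq]
    rw [this, Complex.ofReal_re]
  rw [h2, h3] at h1
  exact h1

end Fermat.Agent.LT.T5.H873

end
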