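import Mathlib
import Fermat.Agent.LT.T5.H873.KerAut
import Fermat.Agent.LT.T5.H873.SupOfT2
import Fermat.Agent.LT.T5.H873.RangeAdapt

/-!
# Row LT, tower T5: T5.02 `LeafHS0` and T5.04 `LeafRange` FROM TOWER T2 (helper873)

OFF-MAIN.  The spectral side of T5 hangs on ONE estimate of tower T2, `T2.GPSKillT`
(`T2/SpecTau.lean`, helper130, sha256 4d2b0fc2; leaves T2.22 `LeafT03` + T2.23 `LeafT13`):

* `leafHS0_of_gpsKillT873 : T1.T1Out K → T2.GPSKillT K 𝔫 τ → T5.LeafHS0 𝔫 τ`;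
* `leafRange_of_gpsKillT873 : T1.T1Out K → T2.GPSKillT K 𝔫 τ → H74.KerCuspC74 𝔫 τ →
    T5.LeafRange 𝔫 τ` (on the delivery `H74.leafRange_of74` of helper74).
-/

set_option autoImplicit false

open IsDedekindDomain NumberField MeasureTheory
open scoped MatrixGroups ComplexConjugate ContDiff Topology

noncomputable section

namespace Fermat.Agent.LT.T5.H873

open Fermat.Agent.LT.H556.A0 Fermat.Agent.LT.T5

attribute [local instance] Fermat.Agent.LT.T5.instMeasurableSpaceG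

variable {K : Type} [Field K] [NumberField K]

/-- The sup bound of T5 from tower T2 and the output of tower T1. -/
theorem supBoundC_of_T2_873 (h1 : T1.T1Out K) (𝔫 : Ideal (𝓞 K)) (τ : G K → ℂ)
    (h : T2.GPSKillT K 𝔫 τ) : SupBoundC 𝔫 τ :=
  supBoundC_of_gpsKillT873 h1.locComp h1.adeleLattice h1.addFundDom 𝔫 τ h

/-- **T5.02 `LeafHS0` from `T2.GPSKillT`** and the output of tower T1. -/
theorem leafHS0_of_gpsKillT873 (h1 : T1.T1Out K) (𝔫 : Ideal (𝓞 K)) (τ : G K → ℂ)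
    (h : T2.GPSKillT K 𝔫 τ) : LeafHS0 𝔫 τ :=
  leafHS0_of_T1Out873 h1 𝔫 τ (supBoundC_of_T2_873 h1 𝔫 τ h)

/-- **T5.04 `LeafRange` from `T2.GPSKillT`**, the cuspidality of the kernel and the output of
tower T1. -/
theorem leafRange_of_gpsKillT873 (h1 : T1.T1Out K) (𝔫 : Ideal (𝓞 K)) (τ : G K → ℂ)
    (h : T2.GPSKillT K 𝔫 τ) (hcusp : H74.KerCuspC74 𝔫 τ) : LeafRange 𝔫 τ :=
  leafRange_of_supBound873 h1.locComp h1.discrete h1.adNorm h1.locComp h1.adeleLattice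
    h1.addFundDom 𝔫 τ (supBoundC_of_T2_873 h1 𝔫 τ h) hcusp

end Fermat.Agent.LT.T5.H873

end
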